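import Mathlib
import Fermat.Agent.H82.SS.Contract
import Fermat.Prelude.Thm_ModularCurve_coeffMap_qExpand

/-!
# P-SS / SS-AL-COMM (row 747, helper4): `W_q` commutes with the coefficientwise Galois action

`atkinLehnerComm_prime`: for a PRIME `q`, every `W` with `IsAtkinLehnerModel K₁ M q W` commutes
with `modelSigma K₁ (M * q) σ₁`.

(For prime `q` every divisor `d` of `M q` divides `M` or is `q d'` with `d' ∣ M`, so the model
field of level `M q` is generated by `K₁`, `α(F_M)` and `β(F_M)`.)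
-/

set_option autoImplicit false

noncomputable section

namespace Fermat.Agent.H4.SS

open ModularCurve IntermediateField Fermat.Agent.H22.KL Fermat.Agent.H82.SS

section

variable (K₁ : Type) [Field K₁] [Algebra ℚ K₁] (M q : ℕ) [NeZero M] [NeZero q]

theorem modelSigma_alpha (σ₁ : K₁ ≃ₐ[ℚ] K₁) (u : ModelField K₁ M) :
    modelSigma K₁ (M * q) σ₁ (heckeAlphaBar K₁ M q u)
      = heckeAlphaBar K₁ M q (modelSigma K₁ M σ₁ u) := by
  apply Subtype.ext
  rw [coe_arithmeticRingAut_apply, coe_heckeAlphaBar, coe_heckeAlphaBar,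
    coe_arithmeticRingAut_apply]

theorem modelSigma_beta (σ₁ : K₁ ≃ₐ[ℚ] K₁) (u : ModelField K₁ M) :
    modelSigma K₁ (M * q) σ₁ (heckeBetaBar K₁ M q u)
      = heckeBetaBar K₁ M q (modelSigma K₁ M σ₁ u) := by
  apply Subtype.ext
  rw [coe_arithmeticRingAut_apply, coe_heckeBetaBar, coe_heckeBetaBar,
    coe_arithmeticRingAut_apply, coeffMap_qExpand]

/-- For prime `q`, the generators of level `M q` come from level `M` through `α` or `β`. -/
theorem generator_alpha_or_beta (hq : q.Prime) {d : ℕ} [NeZero d] (hd : d ∣ M * q)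
    (h : coeffEmb K₁ (qExpand ℚ d jq) ∈ laurentBaseChange K₁ (modularFunctionFieldFull (M * q))) :
    ∃ u : ModelField K₁ M,
      (⟨coeffEmb K₁ (qExpand ℚ d jq), h⟩ : ModelField K₁ (M * q)) = heckeAlphaBar K₁ M q u ∨
      (⟨coeffEmb K₁ (qExpand ℚ d jq), h⟩ : ModelField K₁ (M * q)) = heckeBetaBar K₁ M q u := by
  by_cases hqd : q ∣ d
  · obtain ⟨d', rfl⟩ := hqd
    have hd'0 : d' ≠ 0 := fun h0 => NeZero.ne (q * d') (by rw [h0, mul_zero])
    haveI : NeZero d' := ⟨hd'0⟩
    have hd' : d' ∣ M := by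
      rw [mul_comm M q] at hd
      exact Nat.dvd_of_mul_dvd_mul_left hq.pos hd
    refine ⟨⟨coeffEmb K₁ (qExpand ℚ d' jq),
      coeffEmb_mem_laurentBaseChange K₁ (jqd_mem_full M hd')⟩, Or.inr ?_⟩
    apply Subtype.ext
    rw [coe_heckeBetaBar]
    show coeffEmb K₁ (qExpand ℚ (q * d') jq) = qExpand K₁ q (coeffEmb K₁ (qExpand ℚ d' jq))
    rw [← qExpand_qExpand]
    exact coeffMap_qExpand _ q _
  · have hcop : Nat.Coprime d q := (Nat.Coprime.symm ((Nat.Prime.coprime_iff_not_dvd hq).2 hqd))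
    have hdM : d ∣ M := hcop.dvd_of_dvd_mul_right hd
    refine ⟨⟨coeffEmb K₁ (qExpand ℚ d jq),
      coeffEmb_mem_laurentBaseChange K₁ (jqd_mem_full M hdM)⟩, Or.inl ?_⟩
    apply Subtype.ext
    rw [coe_heckeAlphaBar]

end

/-- **`W_q` commutes with the coefficientwise Galois action** (`q` prime). -/
theorem atkinLehnerComm_prime (M q : ℕ) [NeZero M] [NeZero q] (hq : q.Prime)
    (K₁ : Type) [Field K₁] [Algebra ℚ K₁]
    (W : ModelField K₁ (M * q) ≃ₐ[K₁] ModelField K₁ (M * q))
    (hW : IsAtkinLehnerModel K₁ M q W) (σ₁ : K₁ ≃ₐ[ℚ] K₁) (z : ModelField K₁ (M * q)) :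
    W (modelSigma K₁ (M * q) σ₁ z) = modelSigma K₁ (M * q) σ₁ (W z) := by
  obtain ⟨hWα, hWβ⟩ := hW
  have hα : ∀ u : ModelField K₁ M, W (modelSigma K₁ (M * q) σ₁ (heckeAlphaBar K₁ M q u))
      = modelSigma K₁ (M * q) σ₁ (W (heckeAlphaBar K₁ M q u)) := by
    intro u
    rw [modelSigma_alpha, hWα, hWα, modelSigma_beta]
  have hβ : ∀ u : ModelField K₁ M, W (modelSigma K₁ (M * q) σ₁ (heckeBetaBar K₁ M q u))
      = modelSigma K₁ (M * q) σ₁ (W (heckeBetaBar K₁ M q u)) := by
    intro u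
    rw [modelSigma_beta, hWβ, hWβ, modelSigma_alpha]
  have hconst : ∀ a : K₁,
      W (modelSigma K₁ (M * q) σ₁ (algebraMap K₁ (ModelField K₁ (M * q)) a))
      = modelSigma K₁ (M * q) σ₁ (W (algebraMap K₁ (ModelField K₁ (M * q)) a)) := by
    intro a
    rw [arithmeticRingAut_algebraMap, W.commutes, W.commutes, arithmeticRingAut_algebraMap]
  -- the inner induction: images of the rational function field
  have hrat : ∀ (y : LaurentSeries ℚ) (hy : y ∈ modularFunctionFieldFull (M * q))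
      (h : coeffEmb K₁ y ∈ laurentBaseChange K₁ (modularFunctionFieldFull (M * q))),
      W (modelSigma K₁ (M * q) σ₁ ⟨coeffEmb K₁ y, h⟩)
        = modelSigma K₁ (M * q) σ₁ (W ⟨coeffEmb K₁ y, h⟩) := by
    intro y hy
    unfold modularFunctionFieldFull at hy
    induction hy using IntermediateField.adjoin_induction with
    | mem x hx =>
      intro h
      obtain ⟨d, hd0, hd, rfl⟩ := hx
      haveI := hd0
      obtain ⟨u, hu | hu⟩ := generator_alpha_or_beta K₁ M q hq hd h
      · rw [hu]; exact hα u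
      · rw [hu]; exact hβ u
    | algebraMap r =>
      intro h
      have e : (⟨coeffEmb K₁ (algebraMap ℚ (LaurentSeries ℚ) r), h⟩ : ModelField K₁ (M * q))
          = algebraMap K₁ (ModelField K₁ (M * q)) (algebraMap ℚ K₁ r) := by
        apply Subtype.ext
        show coeffEmb K₁ (algebraMap ℚ (LaurentSeries ℚ) r)
          = algebraMap K₁ (LaurentSeries K₁) (algebraMap ℚ K₁ r)
        rw [algebraMap_laurentSeries_eq_single, algebraMap_laurentSeries_eq_single]
        exact coeffMap_single _ _ _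
      rw [e]
      exact hconst _
    | add x y hx hy ihx ihy =>
      intro h
      have hx' := coeffEmb_mem_laurentBaseChange K₁ (F₀ := modularFunctionFieldFull (M * q)) hx
      have hy' := coeffEmb_mem_laurentBaseChange K₁ (F₀ := modularFunctionFieldFull (M * q)) hy
      have e : (⟨coeffEmb K₁ (x + y), h⟩ : ModelField K₁ (M * q))
          = ⟨coeffEmb K₁ x, hx'⟩ + ⟨coeffEmb K₁ y, hy'⟩ :=
        Subtype.ext (map_add (coeffEmb K₁) x y)
      rw [e, map_add, map_add, map_add, map_add, ihx hx', ihy hy']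
    | inv x hx ihx =>
      intro h
      have hx' := coeffEmb_mem_laurentBaseChange K₁ (F₀ := modularFunctionFieldFull (M * q)) hx
      have e : (⟨coeffEmb K₁ x⁻¹, h⟩ : ModelField K₁ (M * q))
          = (⟨coeffEmb K₁ x, hx'⟩ : ModelField K₁ (M * q))⁻¹ :=
        Subtype.ext (map_inv₀ (coeffEmb K₁) x)
      rw [e, map_inv₀, map_inv₀, map_inv₀, map_inv₀, ihx hx']
    | mul x y hx hy ihx ihy =>
      intro h
      have hx' := coeffEmb_mem_laurentBaseChange K₁ (F₀ := modularFunctionFieldFull (M * q)) hx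
      have hy' := coeffEmb_mem_laurentBaseChange K₁ (F₀ := modularFunctionFieldFull (M * q)) hy
      have e : (⟨coeffEmb K₁ (x * y), h⟩ : ModelField K₁ (M * q))
          = ⟨coeffEmb K₁ x, hx'⟩ * ⟨coeffEmb K₁ y, hy'⟩ :=
        Subtype.ext (map_mul (coeffEmb K₁) x y)
      rw [e, map_mul, map_mul, map_mul, map_mul, ihx hx', ihy hy']
  -- the outer induction
  obtain ⟨z, hz⟩ := z
  unfold laurentBaseChange at hz
  induction hz using IntermediateField.adjoin_induction with
  | mem x hx =>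
    obtain ⟨y, hy, rfl⟩ := hx
    exact hrat y hy _
  | algebraMap a => exact hconst a
  | add x y hx hy ihx ihy =>
    have e : (⟨x + y, add_mem hx hy⟩ : ModelField K₁ (M * q)) = ⟨x, hx⟩ + ⟨y, hy⟩ := rfl
    rw [e, map_add, map_add, map_add, map_add, ihx, ihy]
  | inv x hx ihx =>
    have e : (⟨x⁻¹, inv_mem hx⟩ : ModelField K₁ (M * q)) = (⟨x, hx⟩ : ModelField K₁ (M * q))⁻¹ :=
      rfl
    rw [e, map_inv₀, map_inv₀, map_inv₀, map_inv₀, ihx]
  | mul x y hx hy ihx ihy =>
    have e : (⟨x * y, mul_mem hx hy⟩ : ModelField K₁ (M * q)) = ⟨x, hx⟩ * ⟨y, hy⟩ := rfl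
    rw [e, map_mul, map_mul, map_mul, map_mul, ihx, ihy]

end Fermat.Agent.H4.SS
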