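/-
P-SS row 642 (helper4): LOCAL HARTOGS, the abstract core (Mathlib only).

`B` a noetherian integrally closed domain with fraction field `E`, `𝔪` a prime ideal, `z : E`.
If `z ∉ B_𝔪`, there is a nonzero prime `P ⊆ 𝔪` such that `B_P` is a discrete valuation ring
(as a `ValuationSubring` of `E`), `P` has height one, and `z ∉ B_P`.

* `hartogsColon 𝔪 t` : the local conductor `{b | ∃ s ∉ 𝔪, s b t ∈ B}`;
* `hartogs_exists_prime` : a maximal proper local conductor of a multiple of `z` is prime;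
* `hartogs_exists_unit` : `t P ⊆ B` and `t ∉ B_𝔪` force `t b₁ ∈ B ∖ P` for some `b₁ ∈ P`;
* `hartogs_dvr` : then `B_P` is a discrete valuation ring and `P` has height one;
* `hartogs_core` : the statement.
-/
import Mathlib

set_option autoImplicit false
set_option linter.unusedSectionVars false
set_option linter.style.haveILetI false

namespace Fermat.Agent.H4.SS

open IsLocalRing

section Core

variable {B E : Type*} [CommRing B] [IsDomain B] [Field E] [Algebra B E] [IsFractionRing B E]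

/-- The local conductor of `t` at the prime `𝔪`: all `b` with `s b t ∈ B` for some `s ∉ 𝔪`. -/
def hartogsColon (𝔪 : Ideal B) [h𝔪 : 𝔪.IsPrime] (t : E) : Ideal B where
  carrier := {b | ∃ s : B, s ∉ 𝔪 ∧ algebraMap B E (s * b) * t ∈ (algebraMap B E).range}
  add_mem' := by
    rintro a b ⟨s, hs, c, hc⟩ ⟨s', hs', c', hc'⟩
    refine ⟨s * s', fun h => (h𝔪.mem_or_mem h).elim hs hs', s' * c + s * c', ?_⟩
    simp only [map_add, map_mul] at hc hc' ⊢
    rw [hc, hc']
    ring
  zero_mem' := ⟨1, (Ideal.ne_top_iff_one 𝔪).1 h𝔪.ne_top, 0, by simp⟩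
  smul_mem' := by
    rintro c b ⟨s, hs, d, hd⟩
    refine ⟨s, hs, c * d, ?_⟩
    simp only [smul_eq_mul, map_mul] at hd ⊢
    rw [hd]
    ring

variable (𝔪 : Ideal B) [h𝔪 : 𝔪.IsPrime]

omit [IsDomain B] [IsFractionRing B E] in
theorem mem_hartogsColon {t : E} {b : B} :
    b ∈ hartogsColon 𝔪 t ↔
      ∃ s : B, s ∉ 𝔪 ∧ algebraMap B E (s * b) * t ∈ (algebraMap B E).range := Iff.rfl

omit [IsDomain B] [IsFractionRing B E] in
theorem hartogsColon_eq_top_iff {t : E} :
    hartogsColon 𝔪 t = ⊤ ↔ ∃ s : B, s ∉ 𝔪 ∧ algebraMap B E s * t ∈ (algebraMap B E).range := by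
  rw [Ideal.eq_top_iff_one, mem_hartogsColon]
  simp only [mul_one]

omit [IsDomain B] [IsFractionRing B E] in
theorem hartogsColon_le {t : E} (h : hartogsColon 𝔪 t ≠ ⊤) : hartogsColon 𝔪 t ≤ 𝔪 := by
  intro b hb
  by_contra hb𝔪
  obtain ⟨s, hs, hsb⟩ := hb
  exact h ((hartogsColon_eq_top_iff 𝔪).2
    ⟨s * b, fun h' => (h𝔪.mem_or_mem h').elim hs hb𝔪, hsb⟩)

omit [IsDomain B] [IsFractionRing B E] in
theorem mem_hartogsColon_mul {t : E} {x b : B} :
    b ∈ hartogsColon 𝔪 (algebraMap B E x * t) ↔ b * x ∈ hartogsColon 𝔪 t := by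
  simp only [mem_hartogsColon]
  constructor
  · rintro ⟨s, hs, h⟩
    refine ⟨s, hs, ?_⟩
    have e : algebraMap B E (s * (b * x)) * t = algebraMap B E (s * b) * (algebraMap B E x * t) := by
      simp only [map_mul]; ring
    rw [e]; exact h
  · rintro ⟨s, hs, h⟩
    refine ⟨s, hs, ?_⟩
    have e : algebraMap B E (s * (b * x)) * t = algebraMap B E (s * b) * (algebraMap B E x * t) := by
      simp only [map_mul]; ring
    rw [← e]; exact h

omit [IsDomain B] [IsFractionRing B E] in
theorem hartogsColon_le_mul {t : E} (x : B) :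
    hartogsColon 𝔪 t ≤ hartogsColon 𝔪 (algebraMap B E x * t) := by
  intro b hb
  rw [mem_hartogsColon_mul]
  exact Ideal.mul_mem_right x _ hb

omit [IsDomain B] [IsFractionRing B E] in
theorem hartogsColon_mul_of_notMem {t : E} {s : B} (hs : s ∉ 𝔪) :
    hartogsColon 𝔪 (algebraMap B E s * t) = hartogsColon 𝔪 t := by
  refine le_antisymm ?_ (hartogsColon_le_mul 𝔪 s)
  intro b hb
  rw [mem_hartogsColon_mul] at hb
  obtain ⟨s', hs', h⟩ := hb
  refine ⟨s' * s, fun h' => (h𝔪.mem_or_mem h').elim hs' hs, ?_⟩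
  have e : algebraMap B E (s' * s * b) * t = algebraMap B E (s' * (b * s)) * t := by
    simp only [map_mul]; ring
  rw [e]; exact h

end Core

section Prime

variable {B E : Type*} [CommRing B] [IsDomain B] [Field E] [Algebra B E] [IsFractionRing B E]
variable (𝔪 : Ideal B) [h𝔪 : 𝔪.IsPrime]

/-- If `z ∉ B_𝔪` there is a multiple `t = b₀ z` whose local conductor `P` is a nonzero prime
ideal contained in `𝔪`, with `t P ⊆ B`. -/
theorem hartogs_exists_prime [IsNoetherianRing B] (z : E)
    (hz : ∀ b : B, b ∉ 𝔪 → algebraMap B E b * z ∉ (algebraMap B E).range) :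
    ∃ b₀ : B, (hartogsColon 𝔪 (algebraMap B E b₀ * z)).IsPrime ∧
      hartogsColon 𝔪 (algebraMap B E b₀ * z) ≤ 𝔪 ∧
      hartogsColon 𝔪 (algebraMap B E b₀ * z) ≠ ⊥ ∧
      ∀ b ∈ hartogsColon 𝔪 (algebraMap B E b₀ * z),
        algebraMap B E b * (algebraMap B E b₀ * z) ∈ (algebraMap B E).range := by
  classical
  let 𝒮 : Set (Ideal B) := {I | I ≠ ⊤ ∧ ∃ b₀ : B, I = hartogsColon 𝔪 (algebraMap B E b₀ * z)}
  have hne : 𝒮.Nonempty := by
    refine ⟨hartogsColon 𝔪 (algebraMap B E 1 * z), ?_, 1, rfl⟩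
    intro htop
    obtain ⟨s, hs, h⟩ := (hartogsColon_eq_top_iff 𝔪).1 htop
    rw [map_one, one_mul] at h
    exact hz s hs h
  obtain ⟨P', ⟨hPtop', b₀, hPb₀'⟩, hmax'⟩ :=
    (set_has_maximal_iff_noetherian (R := B) (M := B)).2 inferInstance 𝒮 hne
  obtain ⟨P, hPP'⟩ : ∃ P : Ideal B, P = P' := ⟨P', rfl⟩
  have hPtop : P ≠ ⊤ := hPP' ▸ hPtop'
  have hPb₀ : P = hartogsColon 𝔪 (algebraMap B E b₀ * z) := hPP' ▸ hPb₀'
  have hmax : ∀ I ∈ 𝒮, ¬ P < I := hPP' ▸ hmax'
  clear hPtop' hPb₀' hmax' hPP' P'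
  set t₀ : E := algebraMap B E b₀ * z with ht₀
  -- `P` is prime
  have hPprime : P.IsPrime := by
    rw [Ideal.isPrime_iff]
    refine ⟨hPtop, ?_⟩
    intro x y hxy
    by_contra hcon
    rw [not_or] at hcon
    obtain ⟨hx, hy⟩ := hcon
    have hI'top : hartogsColon 𝔪 (algebraMap B E x * t₀) ≠ ⊤ := by
      intro htop
      obtain ⟨s, hs, h⟩ := (hartogsColon_eq_top_iff 𝔪).1 htop
      apply hx
      rw [hPb₀]
      refine ⟨s, hs, ?_⟩
      have e : algebraMap B E (s * x) * t₀ = algebraMap B E s * (algebraMap B E x * t₀) := by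
        simp only [map_mul]; ring
      rw [e]; exact h
    have hI'mem : hartogsColon 𝔪 (algebraMap B E x * t₀) ∈ 𝒮 := by
      refine ⟨hI'top, x * b₀, ?_⟩
      have e : algebraMap B E x * t₀ = algebraMap B E (x * b₀) * z := by
        rw [ht₀, map_mul]; ring
      rw [e]
    have hle : P ≤ hartogsColon 𝔪 (algebraMap B E x * t₀) := by
      rw [hPb₀]; exact hartogsColon_le_mul 𝔪 x
    have heq : hartogsColon 𝔪 (algebraMap B E x * t₀) = P :=
      (eq_of_le_of_not_lt hle (hmax _ hI'mem)).symm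
    apply hy
    rw [← heq, mem_hartogsColon_mul, mul_comm y x, ← hPb₀]
    exact hxy
  -- `P ≠ ⊥`
  have hPbot : P ≠ ⊥ := by
    obtain ⟨a, d, hd, had⟩ := IsFractionRing.div_surjective (A := B) t₀
    have hd0 : d ≠ 0 := nonZeroDivisors.ne_zero hd
    have hd0' : algebraMap B E d ≠ 0 :=
      (map_ne_zero_iff _ (IsFractionRing.injective B E)).2 hd0
    intro hbot
    have hdP : d ∈ P := by
      rw [hPb₀]
      refine ⟨1, (Ideal.ne_top_iff_one 𝔪).1 h𝔪.ne_top, a, ?_⟩
      rw [one_mul, ← had]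
      field_simp
    rw [hbot, Ideal.mem_bot] at hdP
    exact hd0 hdP
  -- clearing the local denominators
  obtain ⟨G, hG⟩ := (isNoetherianRing_iff_ideal_fg B).1 inferInstance P
  have hch : ∀ g : B, ∃ s : B, s ∉ 𝔪 ∧
      (g ∈ P → algebraMap B E (s * g) * t₀ ∈ (algebraMap B E).range) := by
    intro g
    by_cases hg : g ∈ P
    · rw [hPb₀] at hg
      obtain ⟨s, hs, h⟩ := hg
      exact ⟨s, hs, fun _ => h⟩
    · exact ⟨1, (Ideal.ne_top_iff_one 𝔪).1 h𝔪.ne_top, fun h => absurd h hg⟩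
  choose σ hσ𝔪 hσ using hch
  set s : B := ∏ g ∈ G, σ g with hs
  have hs𝔪 : s ∉ 𝔪 := by
    intro h
    obtain ⟨g, -, hg⟩ := (Ideal.IsPrime.prod_mem_iff (hp := h𝔪)).1 h
    exact hσ𝔪 g hg
  have hGP : ∀ g ∈ G, g ∈ P := fun g hg => by
    rw [← hG]; exact Ideal.subset_span hg
  refine ⟨s * b₀, ?_⟩
  have e1 : algebraMap B E (s * b₀) * z = algebraMap B E s * t₀ := by
    rw [ht₀, map_mul]; ring
  have e2 : hartogsColon 𝔪 (algebraMap B E (s * b₀) * z) = P := by
    rw [e1, hartogsColon_mul_of_notMem 𝔪 hs𝔪, hPb₀]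
  rw [e2]
  refine ⟨hPprime, ?_, hPbot, ?_⟩
  · rw [hPb₀]
    rw [hPb₀] at hPtop
    exact hartogsColon_le 𝔪 hPtop
  · intro b hb
    rw [e1]
    rw [← hG] at hb
    induction hb using Submodule.span_induction with
    | mem g hg =>
      obtain ⟨c, hc⟩ := Finset.dvd_prod_of_mem σ hg
      obtain ⟨d, hd⟩ := hσ g (hGP g hg)
      refine ⟨c * d, ?_⟩
      rw [map_mul, hd, hs, hc]
      simp only [map_mul]
      ring
    | zero => exact ⟨0, by simp⟩
    | add x y _ _ hx hy =>
      obtain ⟨c, hc⟩ := hx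
      obtain ⟨d, hd⟩ := hy
      exact ⟨c + d, by rw [map_add, hc, hd, map_add]; ring⟩
    | smul a x _ hx =>
      obtain ⟨c, hc⟩ := hx
      exact ⟨a * c, by rw [map_mul, hc, smul_eq_mul, map_mul]; ring⟩

end Prime

section Unit

variable {B E : Type*} [CommRing B] [IsDomain B] [Field E] [Algebra B E] [IsFractionRing B E]

/-- If `t P ⊆ B` for a finitely generated nonzero ideal `P` of an integrally closed domain and
`t ∉ B`, then `t b₁ ∈ B ∖ P` for some `b₁ ∈ P`. -/
theorem hartogs_exists_unit [IsNoetherianRing B] [IsIntegrallyClosed B] (P : Ideal B)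
    (hP0 : P ≠ ⊥) (t : E) (ht : t ∉ (algebraMap B E).range)
    (htP : ∀ b ∈ P, algebraMap B E b * t ∈ (algebraMap B E).range) :
    ∃ b₁ ∈ P, ∃ u : B, u ∉ P ∧ algebraMap B E b₁ * t = algebraMap B E u := by
  by_contra hcon
  push Not at hcon
  apply ht
  have hint : IsIntegral B t := by
    let N : Submodule B E := Submodule.map (Algebra.linearMap B E) P
    have hN0 : N ≠ ⊥ := by
      intro h
      obtain ⟨b, hb, hb0⟩ := Submodule.exists_mem_ne_zero_of_ne_bot hP0
      have hbN : algebraMap B E b ∈ N := ⟨b, hb, rfl⟩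
      rw [h, Submodule.mem_bot] at hbN
      exact hb0 ((map_eq_zero_iff _ (IsFractionRing.injective B E)).1 hbN)
    have hPfg : Submodule.FG (P : Submodule B B) :=
      (isNoetherianRing_iff_ideal_fg B).1 inferInstance P
    have hNfg : N.FG := Submodule.FG.map (Algebra.linearMap B E) hPfg
    refine isIntegral_of_smul_mem_submodule (R := B) (A := E) (M := E) N hN0 hNfg t ?_
    rintro _ ⟨b, hb, rfl⟩
    obtain ⟨c, hc⟩ := htP b hb
    have hcP : c ∈ P := by
      by_contra hcP
      exact hcon b hb c hcP hc.symm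
    refine ⟨c, hcP, ?_⟩
    rw [Algebra.linearMap_apply, Algebra.linearMap_apply, hc, smul_eq_mul, mul_comm]
  obtain ⟨y, hy⟩ := IsIntegrallyClosed.isIntegral_iff.mp hint
  exact ⟨y, hy⟩

end Unit

section DVR

variable {B E : Type*} [CommRing B] [IsDomain B] [Field E] [Algebra B E] [IsFractionRing B E]

/-- Membership in the localisation `B_P ⊆ E`. -/
theorem hartogs_mem_ofField (P : Ideal B) [P.IsPrime] (x : E) :
    x ∈ Localization.subalgebra.ofField E P.primeCompl P.primeCompl_le_nonZeroDivisors ↔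
      ∃ s : B, s ∉ P ∧ algebraMap B E s * x ∈ (algebraMap B E).range := by
  constructor
  · rintro ⟨a, s, hs, rfl⟩
    refine ⟨s, hs, a, ?_⟩
    have hs0 : algebraMap B E s ≠ 0 :=
      (map_ne_zero_iff _ (IsFractionRing.injective B E)).2
        (nonZeroDivisors.ne_zero (P.primeCompl_le_nonZeroDivisors hs))
    field_simp
  · rintro ⟨s, hs, a, ha⟩
    refine ⟨a, s, hs, ?_⟩
    have hs0 : algebraMap B E s ≠ 0 :=
      (map_ne_zero_iff _ (IsFractionRing.injective B E)).2
        (nonZeroDivisors.ne_zero (P.primeCompl_le_nonZeroDivisors hs))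
    rw [ha]
    field_simp

/-- If `t P ⊆ B` and `t b₁ ∈ B ∖ P` for some `b₁ ∈ P`, then `B_P` is a discrete valuation ring
and `P` has height one. -/
theorem hartogs_dvr [IsNoetherianRing B] (P : Ideal B) [hP : P.IsPrime] (t : E)
    (htP : ∀ b ∈ P, algebraMap B E b * t ∈ (algebraMap B E).range)
    (b₁ : B) (hb₁ : b₁ ∈ P) (u : B) (hu : u ∉ P)
    (hbu : algebraMap B E b₁ * t = algebraMap B E u) :
    ∃ V : ValuationSubring E,
      (∀ x : E, x ∈ V ↔ ∃ s : B, s ∉ P ∧ algebraMap B E s * x ∈ (algebraMap B E).range) ∧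
      IsPrincipalIdealRing V ∧
      (∀ Q : Ideal B, Q.IsPrime → Q ≤ P → Q = ⊥ ∨ Q = P) := by
  classical
  have hinj : Function.Injective (algebraMap B E) := IsFractionRing.injective B E
  have hu0 : algebraMap B E u ≠ 0 := by
    rw [map_ne_zero_iff _ hinj]
    rintro rfl
    exact hu P.zero_mem
  have ht0 : t ≠ 0 := by
    rintro rfl
    rw [mul_zero] at hbu
    exact hu0 hbu.symm
  have hb₁0 : algebraMap B E b₁ ≠ 0 := by
    intro h
    rw [h, zero_mul] at hbu
    exact hu0 hbu.symm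
  let L : Subalgebra B E :=
    Localization.subalgebra.ofField E P.primeCompl P.primeCompl_le_nonZeroDivisors
  haveI hloc : IsLocalization.AtPrime L P :=
    Localization.subalgebra.isLocalization_ofField E P.primeCompl P.primeCompl_le_nonZeroDivisors
  haveI hlr : IsLocalRing L := IsLocalization.AtPrime.isLocalRing L P
  haveI hnoe : IsNoetherianRing L := IsLocalization.isNoetherianRing P.primeCompl L inferInstance
  have hmemL : ∀ x : E, x ∈ L ↔
      ∃ s : B, s ∉ P ∧ algebraMap B E s * x ∈ (algebraMap B E).range :=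
    hartogs_mem_ofField P
  have hmax : maximalIdeal L = P.map (algebraMap B L) :=
    (IsLocalization.AtPrime.map_eq_maximalIdeal P L).symm
  -- the maximal ideal is principal
  have hprin : (maximalIdeal L).IsPrincipal := by
    refine ⟨⟨algebraMap B L b₁, ?_⟩⟩
    rw [hmax]
    apply le_antisymm
    · rw [Ideal.map_le_iff_le_comap]
      intro b hb
      rw [Ideal.mem_comap]
      show algebraMap B L b ∈ Ideal.span {algebraMap B L b₁}
      rw [Ideal.mem_span_singleton']
      obtain ⟨c, hc⟩ := htP b hb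
      have hmem : algebraMap B E c * (algebraMap B E u)⁻¹ ∈ L := ⟨c, u, hu, rfl⟩
      refine ⟨⟨_, hmem⟩, ?_⟩
      apply Subtype.ext
      show algebraMap B E c * (algebraMap B E u)⁻¹ * algebraMap B E b₁ = algebraMap B E b
      rw [hc, ← hbu]
      field_simp
    · show Ideal.span {algebraMap B L b₁} ≤ _
      rw [Ideal.span_singleton_le_iff_mem]
      exact Ideal.mem_map_of_mem _ hb₁
  have hpid : IsPrincipalIdealRing L :=
    ((tfae_of_isNoetherianRing_of_isLocalRing_of_isDomain (R := L)).out 4 0).mp hprin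
  have hval : ValuationRing L :=
    ((tfae_of_isNoetherianRing_of_isLocalRing_of_isDomain (R := L)).out 4 1).mp hprin
  let V : ValuationSubring E :=
    { L.toSubring with
      mem_or_inv_mem' := fun x => by
        rcases ValuationRing.isInteger_or_isInteger L x with ⟨a, ha⟩ | ⟨a, ha⟩
        · left
          rw [← ha]
          exact a.2
        · right
          rw [← ha]
          exact a.2 }
  have hVL : ∀ x : E, x ∈ V ↔ x ∈ L := fun x => Iff.rfl
  refine ⟨V, fun x => (hVL x).trans (hmemL x), ?_, ?_⟩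
  · let f : L →+* V :=
      { toFun := fun x => ⟨x.1, x.2⟩
        map_one' := rfl
        map_mul' := fun _ _ => rfl
        map_zero' := rfl
        map_add' := fun _ _ => rfl }
    have hf : Function.Surjective f := fun x => ⟨⟨x.1, x.2⟩, rfl⟩
    exact IsPrincipalIdealRing.of_surjective f hf
  · intro Q hQ hQP
    by_cases hQ0 : Q = ⊥
    · exact Or.inl hQ0
    · right
      have hdQ : Disjoint (P.primeCompl : Set B) (Q : Set B) := by
        rw [Set.disjoint_left]
        intro x hx hxQ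
        exact hx (hQP hxQ)
      have hdP : Disjoint (P.primeCompl : Set B) (P : Set B) := by
        rw [Set.disjoint_left]
        intro x hx hxP
        exact hx hxP
      have hQ' : (Q.map (algebraMap B L)).IsPrime :=
        IsLocalization.isPrime_of_isPrime_disjoint P.primeCompl L Q hQ hdQ
      have hQ'0 : Q.map (algebraMap B L) ≠ ⊥ := by
        intro h
        obtain ⟨q, hq, hq0⟩ := Submodule.exists_mem_ne_zero_of_ne_bot hQ0
        have h1 : algebraMap B L q ∈ Q.map (algebraMap B L) := Ideal.mem_map_of_mem _ hq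
        rw [h, Ideal.mem_bot] at h1
        have h2 : algebraMap B E q = 0 := congrArg Subtype.val h1
        exact hq0 ((map_eq_zero_iff _ hinj).1 h2)
      have hQmax : (Q.map (algebraMap B L)).IsMaximal :=
        IsPrime.to_maximal_ideal (hpi := hQ') hQ'0
      have heq : Q.map (algebraMap B L) = P.map (algebraMap B L) := by
        rw [← hmax]
        exact IsLocalRing.eq_maximalIdeal hQmax
      have h1 := IsLocalization.under_map_of_isPrime_disjoint P.primeCompl L hQ hdQ
      have h2 := IsLocalization.under_map_of_isPrime_disjoint P.primeCompl L hP hdP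
      rw [← h1, ← h2, heq]

end DVR

section Final

variable {B E : Type*} [CommRing B] [IsDomain B] [Field E] [Algebra B E] [IsFractionRing B E]

/-- **LOCAL HARTOGS, abstract core.**  `B` a noetherian integrally closed domain with fraction
field `E`, `𝔪` a prime ideal, `z : E`.  If `z` lies in `B_P` for every nonzero prime `P ⊆ 𝔪` of
height one such that `B_P` is a discrete valuation ring, then `z` lies in `B_𝔪`. -/
theorem hartogs_core [IsNoetherianRing B] [IsIntegrallyClosed B]
    (𝔪 : Ideal B) [h𝔪 : 𝔪.IsPrime] (z : E)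
    (h : ∀ (P : Ideal B) (V : ValuationSubring E), P.IsPrime → P ≤ 𝔪 → P ≠ ⊥ →
      (∀ x : E, x ∈ V ↔ ∃ s : B, s ∉ P ∧ algebraMap B E s * x ∈ (algebraMap B E).range) →
      IsPrincipalIdealRing V →
      (∀ Q : Ideal B, Q.IsPrime → Q ≤ P → Q = ⊥ ∨ Q = P) →
      ∃ s : B, s ∉ P ∧ algebraMap B E s * z ∈ (algebraMap B E).range) :
    ∃ b : B, b ∉ 𝔪 ∧ algebraMap B E b * z ∈ (algebraMap B E).range := by
  by_contra hcon
  push Not at hcon
  obtain ⟨b₀, hPprime, hP𝔪, hP0, htP⟩ := hartogs_exists_prime 𝔪 z hcon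
  set t : E := algebraMap B E b₀ * z with ht
  set P : Ideal B := hartogsColon 𝔪 t with hP
  have hone : (1 : B) ∉ 𝔪 := (Ideal.ne_top_iff_one 𝔪).1 h𝔪.ne_top
  have htB : t ∉ (algebraMap B E).range := by
    intro htB
    apply hPprime.ne_top
    rw [hP, hartogsColon_eq_top_iff]
    exact ⟨1, hone, by rw [map_one, one_mul]; exact htB⟩
  obtain ⟨b₁, hb₁, u, hu, hbu⟩ := hartogs_exists_unit P hP0 t htB htP
  haveI := hPprime
  obtain ⟨V, hV, hpid, hht⟩ := hartogs_dvr P t htP b₁ hb₁ u hu hbu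
  obtain ⟨s, hs, c, hc⟩ := h P V hPprime hP𝔪 hP0 hV hpid hht
  apply hs
  rw [hP]
  refine ⟨1, hone, b₀ * c, ?_⟩
  rw [one_mul, map_mul, hc, ht]
  ring

end Final

end Fermat.Agent.H4.SS
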