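/-
P-SS row 642 (helper4): SSH-1 LOCAL HARTOGS, `Fermat.Agent.H45.LocalHartogsStatement`.

`B = B(y)` is a noetherian integrally closed domain with fraction field `E₀`; by the abstract core
(`Fermat.Agent.H4.SS.hartogs_core`) it suffices to see that `z` lies in `B_P` for the height-one
primes `P ⊆ 𝔪` with `B_P` a discrete valuation ring:
* `ϖ ∉ P` : `B_P` is a place of `E₀ / K₀` centred at `𝔪`;
* `ϖ ∈ P` : by going down `P ∩ A[y] = ϖ A[y]`, and `z ∈ C(y)` has a denominator outside `ϖ A[y]`.
-/
import Fermat.Agent.H45.SS.Hartogs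
import Fermat.Agent.H41.SS.TubeChart
import Fermat.Agent.H4.SS.HartogsCore

set_option autoImplicit false
set_option linter.unusedSectionVars false
set_option linter.style.haveILetI false

noncomputable section

open Polynomial

namespace Fermat.Agent.H4.SS

open Fermat.Agent.H22.KL Fermat.Agent.H45
open Fermat.Agent.H67.KLConn (PiDvd)
open Fermat.Agent.H87.KL (evX IntX GC)

section Chart

variable (A : Type) [CommRing A] [IsDomain A] [IsDiscreteValuationRing A]
variable (E : Type) [Field E] [Algebra A E] [CharZero E]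

/-- The structure map `A[X] → B(y)`, `X ↦ y`. -/
def hartogsPolyHom (y : E) : A[X] →ₐ[A] ↥(chartClosure A E y) :=
  (aeval y : A[X] →ₐ[A] E).codRestrict (chartClosure A E y)
    (fun p => Fermat.Agent.H41.SS.etale_aeval_mem_chartClosure A E y p)

theorem hartogsPolyHom_coe (y : E) (p : A[X]) :
    ((hartogsPolyHom A E y p : ↥(chartClosure A E y)) : E) = aeval y p := rfl

theorem hartogsPolyHom_injective {y : E} (hy : Transcendental A y) :
    Function.Injective (hartogsPolyHom A E y) := by
  intro p q h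
  exact transcendental_iff_injective.1 hy (congrArg Subtype.val h)

/-- `B(y)` is integral over `A[X]`. -/
theorem hartogs_isIntegralElem (y : E) (b : ↥(chartClosure A E y)) :
    (hartogsPolyHom A E y).toRingHom.IsIntegralElem b := by
  obtain ⟨p, hp, hpb⟩ := (Fermat.Agent.H87.KL.mem_chartClosure_iff y (b : E)).1 b.2
  refine ⟨p, hp, ?_⟩
  apply Subtype.ext
  have h := Polynomial.hom_eval₂ p (hartogsPolyHom A E y).toRingHom
    (chartClosure A E y).val.toRingHom b
  have h2 : (chartClosure A E y).val.toRingHom.comp (hartogsPolyHom A E y).toRingHom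
      = evX (A := A) y := by
    ext <;> rfl
  rw [h2] at h
  exact h.trans hpb

end Chart

section Closed

variable (A : Type) [CommRing A] [IsDomain A] [IsDiscreteValuationRing A]
variable (E : Type) [Field E] [Algebra A E] [CharZero E]

/-- `B(y)` is integrally closed. -/
theorem chartClosure_isIntegrallyClosed (y : E) (hy : Transcendental A y)
    (hfd : ∃ n : ℕ, Nonempty (Module.Basis (Fin n) (chartField A E y) E)) :
    IsIntegrallyClosed ↥(chartClosure A E y) := by
  haveI := Fermat.Agent.H41.SS.chartClosure_isFractionRing A E y hy hfd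
  rw [isIntegrallyClosed_iff E]
  intro x hx
  letI : Algebra A[X] ↥(chartClosure A E y) := (hartogsPolyHom A E y).toRingHom.toAlgebra
  letI : Algebra A[X] E := Fermat.Agent.H91.KLNorm.polyAlgE A E y
  haveI : IsScalarTower A[X] ↥(chartClosure A E y) E :=
    IsScalarTower.of_algebraMap_eq (fun p => rfl)
  haveI : Algebra.IsIntegral A[X] ↥(chartClosure A E y) :=
    ⟨fun b => hartogs_isIntegralElem A E y b⟩
  have h1 : IsIntegral A[X] x := isIntegral_trans x hx
  exact ⟨⟨x, (Fermat.Agent.H87.KL.mem_chartClosure_iff y x).2 h1⟩, rfl⟩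

end Closed

/-- **LOCAL HARTOGS.** -/
theorem localHartogs : LocalHartogsStatement := by
  intro A _ _ _ E _ _ _ hinj ϖ hϖ y hy hfd 𝔪 h𝔪 hϖ𝔪 z hzC hzV
  classical
  haveI hnoe := Fermat.Agent.H41.SS.chartClosure_isNoetherianRing A E hinj ϖ hϖ y hy hfd
  haveI hfr := Fermat.Agent.H41.SS.chartClosure_isFractionRing A E y hy hfd
  haveI hic := chartClosure_isIntegrallyClosed A E y hy hfd
  haveI h𝔪p : 𝔪.IsPrime := h𝔪.isPrime
  have hinjB : Function.Injective (algebraMap ↥(chartClosure A E y) E) :=
    IsFractionRing.injective _ E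
  suffices hcore : ∃ b : ↥(chartClosure A E y), b ∉ 𝔪 ∧
      algebraMap ↥(chartClosure A E y) E b * z ∈ (algebraMap ↥(chartClosure A E y) E).range by
    obtain ⟨b, hb, c, hc⟩ := hcore
    refine ⟨b, hb, ?_⟩
    have : (b : E) * z = (c : E) := hc.symm
    rw [this]
    exact c.2
  apply hartogs_core 𝔪 z
  intro P V hP hP𝔪 hP0 hV hpid hht
  have hone : (1 : ↥(chartClosure A E y)) ∉ P := (Ideal.ne_top_iff_one P).1 hP.ne_top
  by_cases hϖP : algebraMap A ↥(chartClosure A E y) ϖ ∈ P
  · -- the vertical case: going down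
    letI : Algebra A[X] ↥(chartClosure A E y) := (hartogsPolyHom A E y).toRingHom.toAlgebra
    haveI : FaithfulSMul A[X] ↥(chartClosure A E y) :=
      (faithfulSMul_iff_algebraMap_injective A[X] ↥(chartClosure A E y)).mpr
        (hartogsPolyHom_injective A E hy)
    haveI : Algebra.IsIntegral A[X] ↥(chartClosure A E y) :=
      ⟨fun b => hartogs_isIntegralElem A E y b⟩
    haveI : IsIntegrallyClosed A[X] := inferInstance
    haveI : Algebra.HasGoingDown A[X] ↥(chartClosure A E y) := inferInstance
    have hCϖ : algebraMap A[X] ↥(chartClosure A E y) (C ϖ) =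
        algebraMap A ↥(chartClosure A E y) ϖ := (hartogsPolyHom A E y).commutes ϖ
    have hprimeC : Prime (C ϖ : A[X]) := Polynomial.prime_C_iff.mpr hϖ.prime
    haveI hp₀ : (Ideal.span {(C ϖ : A[X])}).IsPrime :=
      (Ideal.span_singleton_prime hprimeC.ne_zero).2 hprimeC
    haveI hPi : P.IsPrime := hP
    haveI hlo : P.LiesOver (P.under A[X]) := ⟨rfl⟩
    have hle : Ideal.span {(C ϖ : A[X])} ≤ P.under A[X] := by
      rw [Ideal.span_singleton_le_iff_mem, Ideal.mem_comap, hCϖ]
      exact hϖP
    have hnlt : ¬ Ideal.span {(C ϖ : A[X])} < P.under A[X] := by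
      intro hlt
      obtain ⟨Q, hQlt, hQp, hQlo⟩ := Ideal.exists_ideal_lt_liesOver_of_lt P hlt
      rcases hht Q hQp hQlt.le with h0 | h1
      · have h2 : (C ϖ : A[X]) ∈ Q.under A[X] := by
          rw [← hQlo.over]
          exact Ideal.mem_span_singleton_self _
        rw [Ideal.mem_comap, hCϖ, h0, Ideal.mem_bot] at h2
        have h3 : algebraMap A E ϖ = 0 := congrArg Subtype.val h2
        exact hϖ.ne_zero (hinj (by rw [h3, map_zero]))
      · exact hQlt.ne h1
    have heq : P.under A[X] = Ideal.span {(C ϖ : A[X])} :=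
      (eq_of_le_of_not_lt hle hnlt).symm
    obtain ⟨h, hh, hnd, hhz⟩ := hzC
    obtain ⟨H, rfl⟩ := (Fermat.Agent.H87.KL.mem_chartRing_iff y h).1 hh
    rw [Fermat.Agent.H87.KL.piDvd_aeval_iff hy] at hnd
    refine ⟨hartogsPolyHom A E y H, ?_, ⟨⟨_, hhz⟩, rfl⟩⟩
    intro hHP
    apply hnd
    have : H ∈ P.under A[X] := hHP
    rw [heq, Ideal.mem_span_singleton] at this
    exact this
  · -- the horizontal case: `B_P` is a place centred at `𝔪`
    have hBV : ∀ b : ↥(chartClosure A E y), (b : E) ∈ V := fun b =>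
      (hV _).2 ⟨1, hone, b, by rw [map_one, one_mul]; rfl⟩
    have hne0 : ∀ s : ↥(chartClosure A E y), s ∉ P → (s : E) ≠ 0 := by
      intro s hs h0
      apply hs
      have : s = 0 := Subtype.ext h0
      rw [this]
      exact P.zero_mem
    have hinvV : ∀ s : ↥(chartClosure A E y), s ∉ P → (s : E)⁻¹ ∈ V := fun s hs =>
      (hV _).2 ⟨s, hs, 1, by
        rw [map_one]
        exact (mul_inv_cancel₀ (hne0 s hs)).symm⟩
    have hAP : ∀ a : A, a ≠ 0 → algebraMap A ↥(chartClosure A E y) a ∉ P := by
      intro a ha haP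
      obtain ⟨n, hn⟩ := IsDiscreteValuationRing.associated_pow_irreducible ha hϖ
      obtain ⟨u, hu⟩ := hn.symm
      rw [← hu, map_mul, map_pow] at haP
      rcases hP.mem_or_mem haP with h1 | h1
      · exact hϖP (hP.mem_of_pow_mem n h1)
      · exact hP.ne_top (Ideal.eq_top_of_isUnit_mem _ h1 (u.isUnit.map _))
    have hcen : CentredAt A E y 𝔪 V := by
      refine ⟨⟨⟨?_, hpid, ?_⟩, ?_⟩, ?_⟩
      · intro htop
        obtain ⟨b, hb, hb0⟩ := Submodule.exists_mem_ne_zero_of_ne_bot hP0
        have hbV : (b : E)⁻¹ ∈ V := by rw [htop]; trivial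
        obtain ⟨s, hs, c, hc⟩ := (hV _).1 hbV
        apply hs
        have hb0' : (b : E) ≠ 0 := fun h => hb0 (Subtype.ext h)
        have hsc : s = c * b := by
          apply hinjB
          rw [map_mul, hc]
          show (s : E) = (s : E) * (b : E)⁻¹ * (b : E)
          field_simp
        rw [hsc]
        exact Ideal.mul_mem_left _ _ hb
      · intro a ha
        exact ⟨hBV (algebraMap A ↥(chartClosure A E y) a),
          hinvV (algebraMap A ↥(chartClosure A E y) a) (hAP a ha)⟩
      · have hyB : y ∈ chartClosure A E y := by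
          have := Fermat.Agent.H41.SS.etale_aeval_mem_chartClosure A E y (X : A[X])
          rwa [aeval_X] at this
        exact hBV ⟨y, hyB⟩
      · intro s hs
        apply hP𝔪
        by_contra hsP
        have hsinv := hinvV s hsP
        rw [ValuationSubring.mem_nonunits_iff] at hs
        rw [← V.valuation_le_one_iff, map_inv₀] at hsinv
        have h3 : 0 < V.valuation (s : E) :=
          lt_of_le_of_ne zero_le (Ne.symm ((_root_.map_ne_zero _).2 (hne0 s hsP)))
        exact absurd ((one_lt_inv₀ h3).2 hs) (not_lt.2 hsinv)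
    exact (hV z).1 (hzV V hcen)

end Fermat.Agent.H4.SS
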